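import Fermat.Agent.S15.GR.Coord.Main
import Fermat.Agent.S15.GR.Unif.Fin
import Fermat.Agent.S15.GR.Norm.Main
import Fermat.Prelude.Def_AlgebraicCurve_Correspondence

/-!
# S15 / GR / Descent : good reduction descends along finite extensions

`F ⊆ F'` finite, compatible valued function fields `V`, `V'`.  If `V'` has a good coordinate and `y ∈ F` is a pre-chart for `V` and for `V'`
(i.e. the Gauss valuation is inert in `F'/F`), then `y` is a good coordinate of `V`.
No Galois group, no hypothesis on the degree (the wild case `char k ∣ [F' : F]` is allowed).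
-/

set_option autoImplicit false
set_option linter.unusedSectionVars false

namespace Fermat.Agent.S15.GR

open AlgebraicCurve Fermat.Agent.S26 Fermat.Agent.S37.Red Fermat.Agent.S19.Geo0 Polynomial
  IntermediateField

variable {K k : Type*} [Field K] [Field k] {A : ValuationSubring K} {π : A →+* k}
variable {F Ft F' Ft' : Type*} [Field F] [Field Ft] [Field F'] [Field Ft']
variable [Algebra K F] [Algebra k Ft] [Algebra K F'] [Algebra k Ft']
variable [IsAlgClosed K] [CharZero K] [FF1 K F] [FF1 K F'] [IsAlgClosed k] [FF1 k Ft] [FF1 k Ft']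
variable {V : VFF A π F Ft} {V' : VFF A π F' Ft'} {y : F} {yt : Ft}

section Tower

variable [Algebra F F'] [IsScalarTower K F F'] [Algebra Ft Ft'] [IsScalarTower k Ft Ft']
variable [Module.Finite F F']

/-- descent of one chart. -/
theorem isChart_descent (hVV : Compat V V') (pc : IsPreChart V y yt)
    (hc' : IsChart V' (algebraMap F F' y) (algebraMap Ft Ft' yt)) : IsChart V y yt :=
  isChart_of_hasUnif pc (hasUnif_of_above hVV pc hc')

/-- **descent of good reduction.** -/
theorem good_descent (hVV : Compat V V') {x' : F'} {xt' : Ft'} (hG' : Good V' x' xt')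
    (pc : IsPreChart V y yt)
    (pc' : IsPreChart V' (algebraMap F F' y) (algebraMap Ft Ft' yt)) : Good V y yt := by
  refine ⟨isChart_descent hVV pc (isChart_of_good hG' pc'), isChart_descent hVV pc.inv ?_⟩
  rw [map_inv₀, map_inv₀]
  exact isChart_of_good hG' pc'.inv

end Tower

/-- **descent of good reduction**, along embeddings. -/
theorem good_descent_along (φ : F →ₐ[K] F') (φt : Ft →ₐ[k] Ft') (hfin : FiniteAlong K φ)
    (hφ : ∀ (f : F) (ft : Ft), V.Red f ft → V'.Red (φ f) (φt ft))
    {x' : F'} {xt' : Ft'} (hG' : Good V' x' xt') (pc : IsPreChart V y yt)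
    (pc' : IsPreChart V' (φ y) (φt yt)) : Good V y yt := by
  letI := algebraAlong φ
  haveI := isScalarTower_along φ
  letI := algebraAlong φt
  haveI := isScalarTower_along φt
  haveI : Module.Finite F F' := hfin
  exact good_descent (V := V) (V' := V') hφ hG' pc pc'

end Fermat.Agent.S15.GR
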