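import Fermat.Agent.S15.GR.Descent
import Fermat.Agent.S15.GR.Mod.Beta
import Fermat.Agent.S19.Geo0.Inst

/-!
# S15 / GR / Main : `X₀(M)` has good reduction at EVERY prime `ℓ ∤ M` (also `ℓ = 2, 3` at inadmissible levels)

`good_jQ : Geo0.Good (gaussVFF M A) (jQ M) (jk M A)` for `A | ℓ ∤ M`; `jQ M = j(q^M)`.
`exists_good_ratStr` = `Geo0.Inst.exists_good_ratStr` without the hypothesis `Crux.Admissible ℓ M`.
`good_of_isPreChart` : every pre-chart `y` of `gaussVFF M A` is a good coordinate.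
-/

set_option autoImplicit false

open AlgebraicCurve ModularCurve

namespace Fermat.Agent.S15.GR

open Fermat.Agent.ES (Qb FF)
open Fermat.Agent.S37 Fermat.Agent.S37.Mod Fermat.Agent.S19.Geo0 Fermat.Agent.S19.Geo0.Inst

variable {M ℓ : ℕ} [NeZero M] {A : ValuationSubring Qb}

/-- an auxiliary prime `r ≠ ℓ` such that `M r` is admissible. -/
theorem exists_aux (hℓ : ℓ.Prime) (hM : ¬ ℓ ∣ M) :
    ∃ r : ℕ, r ≠ 0 ∧ ¬ ℓ ∣ M * r ∧ Fermat.Agent.Crux.Admissible ℓ (M * r) := by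
  by_cases h2 : ℓ = 2
  · subst h2
    refine ⟨3, by norm_num, ?_, fun h => by omega, fun _ => Dvd.intro_left M rfl⟩
    intro h
    rcases (Nat.Prime.dvd_mul hℓ).1 h with h | h
    · exact hM h
    · omega
  · refine ⟨2, by norm_num, ?_, fun _ => Dvd.intro_left M rfl, fun h => absurd h h2⟩
    intro h
    rcases (Nat.Prime.dvd_mul hℓ).1 h with h | h
    · exact hM h
    · exact h2 ((Nat.prime_dvd_prime_iff_eq hℓ Nat.prime_two).1 h)

/-- **Good reduction of `X₀(M)` at `ℓ ∤ M`.** -/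
theorem good_jQ (hℓ : ℓ.Prime) (hM : ¬ ℓ ∣ M) (hA : A.LiesOverPrime ℓ) :
    Good (gaussVFF M A) (jQ M) (jk M A) := by
  obtain ⟨r, hr, hMr, hadm⟩ := exists_aux hℓ hM
  haveI : NeZero r := ⟨hr⟩
  haveI : NeZero (M * r) := ⟨Nat.mul_ne_zero (NeZero.ne M) hr⟩
  obtain ⟨x', xt', hG', -⟩ := exists_good_ratStr (A := A) hℓ hMr hadm hA
  refine good_descent_along (heckeBetaBar Qb M r) (betaRes M r A)
    (Fermat.Agent.ES.finiteAlong_heckeBeta M r) (fun f ft h => red_beta r h) hG'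
    (isPreChart_jQ hℓ hM hA) ?_
  rw [beta_jQ, betaRes_jk]
  exact isPreChart_jQ hℓ hMr hA

/-- every pre-chart is a good coordinate. -/
theorem good_of_isPreChart (hℓ : ℓ.Prime) (hM : ¬ ℓ ∣ M) (hA : A.LiesOverPrime ℓ) {y : FF M}
    {yt : resF M A} (pc : Red.IsPreChart (gaussVFF M A) y yt) : Good (gaussVFF M A) y yt :=
  good_of_good (good_jQ hℓ hM hA) pc

theorem fixF_jQ : FixF (αI M A) (jQ M) := by
  intro σ
  apply Subtype.ext
  rw [coe_αI_smul, coe_jQ]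
  exact Fermat.Agent.Crux.GM.coeffMap_castS _ _

/-- **The modular instance of `Geo0`** at EVERY level prime to `ℓ`. -/
theorem exists_good_ratStr' (hℓ : ℓ.Prime) (hM : ¬ ℓ ∣ M) (hA : A.LiesOverPrime ℓ) :
    ∃ (y : FF M) (yt : resF M A), Good (gaussVFF M A) y yt ∧
      RatStr (αI M A) (gaussVFF M A) (ℓ : Qb) y :=
  ⟨jQ M, jk M A, good_jQ hℓ hM hA, ratStr hℓ hA fixF_jQ⟩

end Fermat.Agent.S15.GR
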